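/-
S59lib / F1 / Main  (helper6)  — Project I, block RT, brick **F1**: THE COTANGENT SPACE OF A HECKE ALGEBRA AT AN
AUGMENTATION HAS FINITE LENGTH.

`𝒪` a DVR, `T` a finite `𝒪`-algebra with a finite JOINTLY INJECTIVE family of `𝒪`-algebra maps `ψ k : T → O₁` into a
domain `O₁ ⊇ 𝒪` (i.e. `T` reduced and `𝒪`-torsion-free: `T ⊗ K` is a product of fields), `π : T →ₐ[𝒪] 𝒪` an
augmentation, `𝔭 = ker π`.  Then `𝔭 / 𝔭²` is a finitely generated TORSION `𝒪`-module: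
`Module.length 𝒪 𝔭.Cotangent ≠ ⊤`.

Proof: `ker ψ_k ⊆ 𝔭 ⟹ ker ψ_k = 𝔭` (an element of `𝔭` is integral over `𝒪` and maps to `0` under `π`); choose
`t_k ∈ ker ψ_k ∖ 𝔭` for the other `k`, `s = ∏ t_k`: then `s 𝔭 = 0`, `c := π s ≠ 0`, `s - c ∈ 𝔭`, so `c 𝔭 ⊆ 𝔭²`.

* `ker_le_of_ker_le`, `exists_annihilator`, **`length_cotangent_ne_top_of_characters`** : the abstract statement
  (also: `exists_smul_cotangent_eq_zero`, the annihilating constant);
* **`length_cotangent_ne_top`** : for `T` of a `HeckeGaloisRepDatum` (characters from `S32lib.exists_characters_dvr`: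
  the anemic Hecke algebra is reduced by Petersson, `S31lib.PET.isReduced_heckeAlgebra'`).
-/
import Mathlib
import Fermat.Agent.S59lib.NumCrit.Len
import Fermat.Agent.S59lib.NumCrit.Gor
import Fermat.Agent.S32lib.Chars.Main
import Fermat.Agent.S31lib.PET.Main
import Fermat.Agent.S22
import Fermat.Prelude.Def_CuspForm_HeckeGaloisRepDatum

set_option autoImplicit false
set_option linter.unusedSectionVars false
set_option linter.style.haveILetI false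

noncomputable section

namespace Fermat.Agent.S59lib.F1

open IsLocalRing Polynomial

section Abstract

variable {𝒪 T O₁ κ : Type} [CommRing 𝒪] [IsDomain 𝒪] [CommRing T] [Algebra 𝒪 T]
  [Module.Finite 𝒪 T] [CommRing O₁] [IsDomain O₁] [Algebra 𝒪 O₁]

/-- a prime `ker ψ` (`ψ` into a domain) below the kernel of an augmentation is that kernel -/
theorem ker_le_of_ker_le (ψ : T →ₐ[𝒪] O₁) (π : T →ₐ[𝒪] 𝒪)
    (h : RingHom.ker (ψ : T →+* O₁) ≤ RingHom.ker (π : T →+* 𝒪)) :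
    RingHom.ker (π : T →+* 𝒪) ≤ RingHom.ker (ψ : T →+* O₁) := by
  intro x hx
  have hπx : π x = 0 := hx
  by_contra hψx
  have hy : ψ x ≠ 0 := hψx
  obtain ⟨f, hfm, hfx⟩ := Algebra.IsIntegral.isIntegral (R := 𝒪) x
  have hfx' : aeval x f = 0 := hfx
  obtain ⟨g, hfg, hg⟩ := exists_eq_pow_rootMultiplicity_mul_and_not_dvd f hfm.ne_zero (0 : 𝒪)
  rw [map_zero, sub_zero] at hfg hg
  set m := rootMultiplicity (0 : 𝒪) f with hm
  -- `g (ψ x) = 0`
  have h1 : (ψ x) ^ m * aeval (ψ x) g = 0 := by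
    have h0 : aeval (ψ x) f = 0 := by rw [aeval_algHom_apply, hfx', map_zero]
    rw [hfg, map_mul, map_pow, aeval_X] at h0
    exact h0
  have h2 : aeval (ψ x) g = 0 := by
    rcases mul_eq_zero.1 h1 with h3 | h3
    · exact absurd (pow_eq_zero_iff (M₀ := O₁) (a := ψ x) (n := m)
        (fun h0 => by rw [h0, pow_zero] at h3; exact one_ne_zero h3) |>.1 h3) hy
    · exact h3
  -- hence `g (π x) = g 0 = 0`
  rw [aeval_algHom_apply] at h2
  have h3 : aeval x g ∈ RingHom.ker (π : T →+* 𝒪) := h h2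
  have h4 : π (aeval x g) = 0 := h3
  rw [← aeval_algHom_apply, hπx] at h4
  apply hg
  rw [X_dvd_iff, coeff_zero_eq_eval_zero]
  rw [← coe_aeval_eq_eval]
  exact h4

variable [Finite κ]

/-- an element outside `𝔭 = ker π` killing `𝔭` -/
theorem exists_annihilator (ψ : κ → T →ₐ[𝒪] O₁) (hψ : ∀ t : T, (∀ k, ψ k t = 0) → t = 0)
    (π : T →ₐ[𝒪] 𝒪) : ∃ s : T, π s ≠ 0 ∧ ∀ x : T, π x = 0 → s * x = 0 := by
  classical
  have := Fintype.ofFinite κ
  have hex : ∀ k, ∃ t : T, π t ≠ 0 ∧ (ψ k t = 0 ∨ ∀ x : T, π x = 0 → ψ k x = 0) := by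
    intro k
    by_cases h : RingHom.ker (ψ k : T →+* O₁) ≤ RingHom.ker (π : T →+* 𝒪)
    · refine ⟨1, by rw [map_one]; exact one_ne_zero, Or.inr fun x hx => ?_⟩
      exact ker_le_of_ker_le (ψ k) π h hx
    · obtain ⟨t, ht1, ht2⟩ := SetLike.not_le_iff_exists.1 h
      exact ⟨t, ht2, Or.inl ht1⟩
  choose t ht1 ht2 using hex
  refine ⟨∏ k, t k, ?_, ?_⟩
  · rw [map_prod]
    exact Finset.prod_ne_zero_iff.2 fun k _ => ht1 k
  · intro x hx
    apply hψ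
    intro k
    rw [map_mul, map_prod]
    rcases ht2 k with h | h
    · rw [Finset.prod_eq_zero (Finset.mem_univ k) h, zero_mul]
    · rw [h x hx, mul_zero]

/-- a non-zero constant killing the cotangent space -/
theorem exists_smul_cotangent_eq_zero (ψ : κ → T →ₐ[𝒪] O₁)
    (hψ : ∀ t : T, (∀ k, ψ k t = 0) → t = 0) (π : T →ₐ[𝒪] 𝒪) :
    ∃ c : 𝒪, c ≠ 0 ∧ ∀ z : (RingHom.ker (π : T →+* 𝒪)).Cotangent, c • z = 0 := by
  obtain ⟨s, hs, hsx⟩ := exists_annihilator ψ hψ π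
  refine ⟨π s, hs, fun z => ?_⟩
  obtain ⟨⟨x, hx⟩, rfl⟩ := Ideal.toCotangent_surjective _ z
  have hπx : π x = 0 := hx
  rw [← algebraMap_smul T (π s), ← map_smul, Ideal.toCotangent_eq_zero]
  show algebraMap 𝒪 T (π s) * x ∈ RingHom.ker (π : T →+* 𝒪) ^ 2
  have h1 : algebraMap 𝒪 T (π s) * x = (algebraMap 𝒪 T (π s) - s) * x := by
    rw [sub_mul, hsx x hπx, sub_zero]
  rw [h1, pow_two]
  refine Ideal.mul_mem_mul ?_ hx
  show π (algebraMap 𝒪 T (π s) - s) = 0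
  rw [map_sub, AlgHom.commutes, Algebra.algebraMap_self_apply, sub_self]

/-- **F1, abstract form**: the cotangent space at an augmentation of a finite `𝒪`-algebra with enough characters into
a domain has finite length. -/
theorem length_cotangent_ne_top_of_characters [IsDiscreteValuationRing 𝒪]
    (ψ : κ → T →ₐ[𝒪] O₁) (hψ : ∀ t : T, (∀ k, ψ k t = 0) → t = 0) (π : T →ₐ[𝒪] 𝒪) :
    Module.length 𝒪 (RingHom.ker (π : T →+* 𝒪)).Cotangent ≠ ⊤ := by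
  obtain ⟨c, hc, hkill⟩ := exists_smul_cotangent_eq_zero ψ hψ π
  -- finite generation
  haveI : IsNoetherian 𝒪 T := isNoetherian_of_isNoetherianRing_of_finite 𝒪 T
  haveI : IsNoetherian 𝒪 ↥((RingHom.ker (π : T →+* 𝒪)).restrictScalars 𝒪) :=
    isNoetherian_submodule' _
  let f₀ : ↥((RingHom.ker (π : T →+* 𝒪)).restrictScalars 𝒪) →ₗ[𝒪]
      (RingHom.ker (π : T →+* 𝒪)).Cotangent :=
    ((RingHom.ker (π : T →+* 𝒪)).toCotangent.restrictScalars 𝒪).comp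
      ((Submodule.restrictScalarsEquiv 𝒪 T T (RingHom.ker (π : T →+* 𝒪))).restrictScalars 𝒪 :
        ↥((RingHom.ker (π : T →+* 𝒪)).restrictScalars 𝒪) →ₗ[𝒪] ↥(RingHom.ker (π : T →+* 𝒪)))
  have hf₀ : Function.Surjective f₀ := by
    intro z
    obtain ⟨y, rfl⟩ := Ideal.toCotangent_surjective _ z
    exact ⟨(Submodule.restrictScalarsEquiv 𝒪 T T (RingHom.ker (π : T →+* 𝒪))).symm y, by
      simp [f₀]⟩
  haveI : Module.Finite 𝒪 (RingHom.ker (π : T →+* 𝒪)).Cotangent :=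
    Module.Finite.of_surjective f₀ hf₀
  obtain ⟨n, f, hf⟩ := Module.Finite.exists_fin' 𝒪 (RingHom.ker (π : T →+* 𝒪)).Cotangent
  rw [← (f.quotKerEquivOfSurjective hf).length_eq]
  refine NumCrit.length_quotient_ne_top_of_smul_mem (LinearMap.ker f) hc fun v => ?_
  rw [LinearMap.mem_ker, map_smul]
  exact hkill _

/-- **`η ≠ 0`**: the congruence ideal of an augmentation is non-zero. -/
theorem congIdeal_ne_bot_of_characters (ψ : κ → T →ₐ[𝒪] O₁)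
    (hψ : ∀ t : T, (∀ k, ψ k t = 0) → t = 0) (π : T →ₐ[𝒪] 𝒪) : NumCrit.congIdeal π ≠ ⊥ := by
  obtain ⟨s, hs, hsx⟩ := exists_annihilator ψ hψ π
  intro h
  have h1 : π s ∈ NumCrit.congIdeal π := NumCrit.mem_congIdeal.2 ⟨s, hsx, rfl⟩
  rw [h, Ideal.mem_bot] at h1
  exact hs h1

/-- `𝒪 ⧸ η` has finite length. -/
theorem length_quotient_congIdeal_ne_top_of_characters [IsDiscreteValuationRing 𝒪]
    (ψ : κ → T →ₐ[𝒪] O₁) (hψ : ∀ t : T, (∀ k, ψ k t = 0) → t = 0) (π : T →ₐ[𝒪] 𝒪) :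
    Module.length 𝒪 (𝒪 ⧸ NumCrit.congIdeal π) ≠ ⊤ := by
  obtain ⟨s, hs, hsx⟩ := exists_annihilator ψ hψ π
  have h1 : π s ∈ NumCrit.congIdeal π := NumCrit.mem_congIdeal.2 ⟨s, hsx, rfl⟩
  have h2 : (Ideal.span {π s} : Ideal 𝒪) ≤ NumCrit.congIdeal π :=
    (Ideal.span_singleton_le_iff_mem _).2 h1
  exact ne_top_of_le_ne_top (NumCrit.length_quotient_span_singleton_ne_top hs)
    (NumCrit.length_quotient_anti (R := 𝒪) (M := 𝒪) h2)

end Abstract

/-! ### the Hecke algebras -/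

section Hecke

variable {N : ℕ} [NeZero N] {S : Finset ℕ}
  {𝒪 : Type} [CommRing 𝒪] [IsDomain 𝒪] [IsDiscreteValuationRing 𝒪]
  [IsAdicComplete (IsLocalRing.maximalIdeal 𝒪) 𝒪] [Finite (IsLocalRing.ResidueField 𝒪)] [CharZero 𝒪]
  {θ : CuspForm.heckeAlgebra N 2 (↑S : Set ℕ) →+* IsLocalRing.ResidueField 𝒪}
  {T : Type} [CommRing T] [IsLocalRing T] [IsNoetherianRing T]
  [IsAdicComplete (IsLocalRing.maximalIdeal T) T] [Algebra 𝒪 T] [IsLocalHom (algebraMap 𝒪 T)]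
  [Module.Finite 𝒪 T] [Module.Free 𝒪 T]

/-- **F1**: the cotangent space of the Hecke algebra of a `HeckeGaloisRepDatum` at an augmentation has finite
length. -/
theorem length_cotangent_ne_top (hNS : ∀ q : ℕ, q.Prime → q ∣ N → q ∈ S)
    (H : CuspForm.HeckeGaloisRepDatum N (↑S : Set ℕ) 𝒪 θ T) (π : T →ₐ[𝒪] 𝒪) :
    Module.length 𝒪 (RingHom.ker (π : T →+* 𝒪)).Cotangent ≠ ⊤ := by
  haveI : IsReduced ↥(CuspForm.heckeAlgebra N 2 (↑S : Set ℕ)) :=
    Fermat.Agent.S31lib.PET.isReduced_heckeAlgebra'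
      (fun q hq hqN => Finset.mem_coe.mpr (hNS q hq hqN))
  haveI : Module.Finite ℤ ↥(CuspForm.heckeAlgebra N 2 (↑S : Set ℕ)) :=
    Fermat.Agent.S22.result N 2 (↑S : Set ℕ)
  obtain ⟨κ, hκ, O₁, i1, i2, i3, i4, i5, i6, i7, i8, i9, hinj, ψ, hψ⟩ :=
    Fermat.Agent.S32lib.exists_characters_dvr H.π H.adjoin_range_π
  exact length_cotangent_ne_top_of_characters ψ hψ π

/-- **`η ≠ 0`** for the Hecke algebra of a `HeckeGaloisRepDatum`: an element of `Ann (ker π)` with non-zero image. -/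
theorem exists_annihilator_hecke (hNS : ∀ q : ℕ, q.Prime → q ∣ N → q ∈ S)
    (H : CuspForm.HeckeGaloisRepDatum N (↑S : Set ℕ) 𝒪 θ T) (π : T →ₐ[𝒪] 𝒪) :
    ∃ s : T, π s ≠ 0 ∧ ∀ x : T, π x = 0 → s * x = 0 := by
  haveI : IsReduced ↥(CuspForm.heckeAlgebra N 2 (↑S : Set ℕ)) :=
    Fermat.Agent.S31lib.PET.isReduced_heckeAlgebra'
      (fun q hq hqN => Finset.mem_coe.mpr (hNS q hq hqN))
  haveI : Module.Finite ℤ ↥(CuspForm.heckeAlgebra N 2 (↑S : Set ℕ)) :=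
    Fermat.Agent.S22.result N 2 (↑S : Set ℕ)
  obtain ⟨κ, hκ, O₁, i1, i2, i3, i4, i5, i6, i7, i8, i9, hinj, ψ, hψ⟩ :=
    Fermat.Agent.S32lib.exists_characters_dvr H.π H.adjoin_range_π
  exact exists_annihilator ψ hψ π

theorem congIdeal_ne_bot (hNS : ∀ q : ℕ, q.Prime → q ∣ N → q ∈ S)
    (H : CuspForm.HeckeGaloisRepDatum N (↑S : Set ℕ) 𝒪 θ T) (π : T →ₐ[𝒪] 𝒪) :
    NumCrit.congIdeal π ≠ ⊥ := by
  obtain ⟨s, hs, hsx⟩ := exists_annihilator_hecke hNS H π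
  intro h
  have h1 : π s ∈ NumCrit.congIdeal π := NumCrit.mem_congIdeal.2 ⟨s, hsx, rfl⟩
  rw [h, Ideal.mem_bot] at h1
  exact hs h1

theorem length_quotient_congIdeal_ne_top (hNS : ∀ q : ℕ, q.Prime → q ∣ N → q ∈ S)
    (H : CuspForm.HeckeGaloisRepDatum N (↑S : Set ℕ) 𝒪 θ T) (π : T →ₐ[𝒪] 𝒪) :
    Module.length 𝒪 (𝒪 ⧸ NumCrit.congIdeal π) ≠ ⊤ := by
  obtain ⟨s, hs, hsx⟩ := exists_annihilator_hecke hNS H π
  have h1 : π s ∈ NumCrit.congIdeal π := NumCrit.mem_congIdeal.2 ⟨s, hsx, rfl⟩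
  have h2 : (Ideal.span {π s} : Ideal 𝒪) ≤ NumCrit.congIdeal π :=
    (Ideal.span_singleton_le_iff_mem _).2 h1
  exact ne_top_of_le_ne_top (NumCrit.length_quotient_span_singleton_ne_top hs)
    (NumCrit.length_quotient_anti (R := 𝒪) (M := 𝒪) h2)

end Hecke

end Fermat.Agent.S59lib.F1

end
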